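/-
S36lib / Gal / Kolchin (helper3).  **Kolchin's theorem for 2×2 matrices over a domain**: a
multiplicatively closed family of 2×2 matrices all of whose members have trace `2` and determinant
`1` (i.e. characteristic polynomial `(X - 1)²`) has a common nonzero fixed vector.
-/
import Mathlib

set_option autoImplicit false

noncomputable section

namespace Fermat.Agent.S36lib

open Matrix Polynomial

/-- two "nilpotent" 2×2 matrices `[[a, b], [c, -a]]`, `[[x, y], [z, -x]]` over a domain whose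
product has trace zero multiply to zero. -/
lemma nil_mul_nil_entries {R : Type*} [CommRing R] [IsDomain R] (a b c x y z : R)
    (h1 : a * a + b * c = 0) (h2 : x * x + y * z = 0) (h3 : 2 * a * x + b * z + c * y = 0) :
    x * a + y * c = 0 ∧ x * b - y * a = 0 ∧ z * a - x * c = 0 ∧ z * b + x * a = 0 := by
  refine ⟨?_, ?_, ?_, ?_⟩
  · linear_combination (exp := 2) x ^ 2 * h1 - b * c * h2 + y * c * h3
  · linear_combination (exp := 2) b ^ 2 * h2 + y ^ 2 * h1 - b * y * h3
  · linear_combination (exp := 2) z ^ 2 * h1 + c ^ 2 * h2 - c * z * h3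
  · linear_combination (exp := 2) x ^ 2 * h1 - b * c * h2 + z * b * h3

/-- matrix form: if `N`, `T` have trace `0` and determinant `0` and `tr (N T) = 0` then `T N = 0`. -/
lemma mul_eq_zero_of_nil {R : Type*} [CommRing R] [IsDomain R] (N T : Matrix (Fin 2) (Fin 2) R)
    (hN1 : N.trace = 0) (hN2 : N.det = 0) (hT1 : T.trace = 0) (hT2 : T.det = 0)
    (hNT : (N * T).trace = 0) : T * N = 0 := by
  rw [Matrix.trace_fin_two] at hN1 hT1 hNT
  rw [Matrix.det_fin_two] at hN2 hT2
  simp only [Matrix.mul_apply, Fin.sum_univ_two] at hNT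
  have hd : N 1 1 = - N 0 0 := by linear_combination hN1
  have hw : T 1 1 = - T 0 0 := by linear_combination hT1
  rw [hd] at hN2 hNT
  rw [hw] at hT2 hNT
  obtain ⟨e1, e2, e3, e4⟩ := nil_mul_nil_entries (N 0 0) (N 0 1) (N 1 0) (T 0 0) (T 0 1) (T 1 0)
    (by linear_combination -hN2) (by linear_combination -hT2) (by linear_combination hNT)
  ext i j
  fin_cases i <;> fin_cases j <;>
    simp only [Matrix.mul_apply, Fin.sum_univ_two, Matrix.zero_apply, Fin.zero_eta, Fin.mk_one,
      Fin.isValue, hd, hw]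
  · linear_combination e1
  · linear_combination e2
  · linear_combination e3
  · linear_combination e4

/-- **Kolchin, 2×2.**  `H` is a set of elements of a monoid `G` closed under multiplication. -/
theorem kolchin_two {R : Type*} [CommRing R] [IsDomain R] {G : Type*} [Monoid G]
    (M : G →* Matrix (Fin 2) (Fin 2) R) (H : Set G) (hmul : ∀ σ ∈ H, ∀ τ ∈ H, σ * τ ∈ H)
    (hH : ∀ σ ∈ H, (M σ).trace = 2 ∧ (M σ).det = 1) :
    ∃ v : Fin 2 → R, v ≠ 0 ∧ ∀ σ ∈ H, M σ *ᵥ v = v := by
  classical
  by_cases hall : ∀ σ ∈ H, M σ = 1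
  · refine ⟨Pi.single 0 1, ?_, fun σ hσ => ?_⟩
    · intro h
      have := congrFun h 0
      simp at this
    · rw [hall σ hσ, Matrix.one_mulVec]
  · push Not at hall
    obtain ⟨σ₀, hσ₀, hne⟩ := hall
    -- the nilpotent part of an element of `H`
    have hnil : ∀ σ ∈ H, (M σ - 1).trace = 0 ∧ (M σ - 1).det = 0 := by
      intro σ hσ
      obtain ⟨ht, hd⟩ := hH σ hσ
      rw [Matrix.trace_fin_two] at ht
      rw [Matrix.det_fin_two] at hd
      refine ⟨?_, ?_⟩
      · rw [Matrix.trace_fin_two]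
        simp only [Matrix.sub_apply, Matrix.one_apply_eq]
        linear_combination ht
      · rw [Matrix.det_fin_two]
        simp only [Matrix.sub_apply, Matrix.one_apply_eq, Matrix.one_apply_ne (zero_ne_one' (Fin 2)),
          Matrix.one_apply_ne (zero_ne_one' (Fin 2)).symm]
        linear_combination hd - ht
    set N₀ := M σ₀ - 1 with hN₀
    have hN₀ne : N₀ ≠ 0 := sub_ne_zero.mpr hne
    -- a nonzero column of `N₀`
    obtain ⟨j, hj⟩ : ∃ j : Fin 2, N₀ *ᵥ Pi.single j 1 ≠ 0 := by
      by_contra hcon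
      push Not at hcon
      apply hN₀ne
      ext i j
      have := congrFun (hcon j) i
      rw [Matrix.mulVec_single_one] at this
      exact this
    refine ⟨N₀ *ᵥ Pi.single j 1, hj, fun τ hτ => ?_⟩
    have hT := hnil τ hτ
    have hN := hnil σ₀ hσ₀
    have htr : (N₀ * (M τ - 1)).trace = 0 := by
      have h1 : N₀ * (M τ - 1) = M (σ₀ * τ) - M σ₀ - M τ + 1 := by
        rw [hN₀, map_mul, sub_mul, mul_sub, mul_sub, mul_one, one_mul, mul_one]
        abel
      rw [h1, Matrix.trace_add, Matrix.trace_sub, Matrix.trace_sub,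
        (hH _ (hmul σ₀ hσ₀ τ hτ)).1, (hH σ₀ hσ₀).1, (hH τ hτ).1, Matrix.trace_one]
      simp
    have hzero := mul_eq_zero_of_nil N₀ (M τ - 1) hN.1 hN.2 hT.1 hT.2 htr
    have h2 : (M τ - 1) *ᵥ (N₀ *ᵥ Pi.single j 1) = 0 := by
      rw [Matrix.mulVec_mulVec, hzero, Matrix.zero_mulVec]
    rw [Matrix.sub_mulVec, Matrix.one_mulVec, sub_eq_zero] at h2
    exact h2

/-- trace and determinant from the characteristic polynomial `(X - 1)²`. -/
lemma trace_det_of_charpoly_eq {R : Type*} [CommRing R] [Nontrivial R]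
    (A : Matrix (Fin 2) (Fin 2) R) (h : A.charpoly = (X - 1) ^ 2) : A.trace = 2 ∧ A.det = 1 := by
  rw [Matrix.charpoly_fin_two] at h
  have h1 := congrArg (fun P => P.coeff 1) h
  have h0 := congrArg (fun P => P.coeff 0) h
  have e : ((X : R[X]) - 1) ^ 2 = X ^ 2 - C 2 * X + C 1 := by
    rw [map_ofNat, map_one]
    ring
  rw [e] at h1 h0
  simp only [coeff_add, coeff_sub, coeff_X_pow, coeff_C_mul, coeff_X_one,
    coeff_X_zero, coeff_C] at h1 h0
  norm_num at h1 h0
  exact ⟨h1, h0⟩

end Fermat.Agent.S36lib
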