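/-
S36lib / Gal / AdicX36 (helper3): the adic block X of S30 for S36.
* `exists_good_piece_of_commute_diag`: copy of `S30.exists_good_piece_of_commute` remembering that
  the good piece `c ⊕ χ c⁻¹` is DIAGONAL;
* `not_absIrr_of_diag`: the representation of a diagonal piece is not residually absolutely
  irreducible (`S31lib.RG.span_matOf_eq_top`: Burnside + Nakayama);
* `isGood_of_forall_absIrr`: if every attached representation over every finite extension is
  residually absolutely irreducible (hypothesis `hres` of S36), the piece itself is good;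
* `not_isUnipotentOnInertiaAt_of_inertiaFree`: the inertia clause (no nonzero vector fixed by
  `I_B`) + Kolchin ⇒ `¬ IsUnipotentOnInertiaAt q`.
-/
import Fermat.Prelude.Def_GaloisRep_LocalConditions
import Fermat.Agent.S29lib.S30.AdicX
import Fermat.Agent.S31lib.RG.Rigidity
import Fermat.Agent.S13lib.PlaceOpen
import Fermat.Agent.S36lib.Gal.Kolchin

set_option autoImplicit false
set_option linter.unusedSectionVars false
set_option linter.style.haveILetI false

noncomputable section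

namespace Fermat.Agent.S36lib

open Fermat.Agent.S29lib.X Fermat.Agent.ExtVan.InertiaLift Polynomial Matrix IsLocalRing
  Fermat.Agent.S29lib.S30

/-! ### the inertia clause for adic pieces -/

section Piece

variable {N p : ℕ} {A : Type} [CommRing A] [IsLocalRing A] {a : Nat.Primes → A}

/-- the inertia clause for an adic piece: for `q² ∥ N`, `q ≠ p`, and `B` over `q`, no nonzero vector
is fixed by all `M(σ)`, `σ ∈ I_B`. -/
def IsInertiaFreePiece (P : AdicPiece N p A a) : Prop :=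
  ∀ q : ℕ, q.Prime → q ≠ p → N.factorization q = 2 →
    ∀ B : ValuationSubring Qb, B.LiesOverPrime q →
      ∀ v : Fin 2 → A, (∀ σ ∈ B.inertiaSubgroupIn ℚ, P.M σ *ᵥ v = v) → v = 0

/-- **inertia clause + Kolchin ⇒ not unipotent on inertia.** -/
theorem not_isUnipotentOnInertiaAt_of_inertiaFree [IsDomain A] (P : AdicPiece N p A a)
    (hP : IsInertiaFreePiece P) {q : ℕ} (hq : q.Prime) (hqp : q ≠ p)
    (hqN : N.factorization q = 2) : ¬ P.toRep.IsUnipotentOnInertiaAt q := by
  intro hun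
  obtain ⟨B, hB⟩ := Fermat.Agent.S13lib.exists_liesOverPrime hq
  have hH : ∀ σ ∈ ((B.inertiaSubgroupIn ℚ : Subgroup GQ) : Set GQ),
      (P.M σ).trace = 2 ∧ (P.M σ).det = 1 := by
    intro σ hσ
    have h1 : LinearMap.charpoly (Matrix.toLin' (P.M σ)) = (X - 1) ^ 2 := hun B hB σ hσ
    rw [Matrix.charpoly_toLin'] at h1
    exact trace_det_of_charpoly_eq _ h1
  obtain ⟨v, hv0, hv⟩ := kolchin_two P.M ((B.inertiaSubgroupIn ℚ : Subgroup GQ) : Set GQ)
    (fun σ hσ τ hτ => (B.inertiaSubgroupIn ℚ).mul_mem hσ hτ) hH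
  exact hv0 (hP q hq hqp hqN B hB v hv)

end Piece

/-! ### diagonal pieces are not residually absolutely irreducible -/

section Diag

variable {N p : ℕ} {A : Type} [CommRing A] [IsLocalRing A] {a : Nat.Primes → A}

theorem not_absIrr_of_diag (P : AdicPiece N p A a) (hdiag : ∀ σ : GQ, (P.M σ) 0 1 = 0) :
    ¬ P.toRep.residual.IsAbsolutelyIrreducible := by
  intro habs
  have hspan := Fermat.Agent.S31lib.RG.span_matOf_eq_top P.toRep (Pi.basisFun A (Fin 2)) habs
  have hmat : ∀ σ : GQ, Fermat.Agent.S31lib.RG.matOf P.toRep (Pi.basisFun A (Fin 2)) σ = P.M σ := by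
    intro σ
    show LinearMap.toMatrix (Pi.basisFun A (Fin 2)) (Pi.basisFun A (Fin 2))
      (Matrix.toLin' (P.M σ)) = P.M σ
    rw [LinearMap.toMatrix_eq_toMatrix', LinearMap.toMatrix'_toLin']
  -- the `(0,1)`-entry vanishes on the span
  have hzero : ∀ X ∈ Submodule.span A
      (Set.range (Fermat.Agent.S31lib.RG.matOf P.toRep (Pi.basisFun A (Fin 2)))), X 0 1 = 0 := by
    intro X hX
    induction hX using Submodule.span_induction with
    | mem X hX =>
      obtain ⟨σ, rfl⟩ := hX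
      rw [hmat σ]
      exact hdiag σ
    | zero => rfl
    | add X Y _ _ hX hY => rw [Matrix.add_apply, hX, hY, add_zero]
    | smul c X _ hX => rw [Matrix.smul_apply, hX, smul_zero]
  have h1 := hzero (Matrix.single 0 1 (1 : A)) (by rw [hspan]; exact Submodule.mem_top)
  rw [Matrix.single_apply_same] at h1
  exact one_ne_zero h1

end Diag

/-! ### The commutative case, remembering the diagonal shape -/

section Bad

variable {N p : ℕ} [hpf : Fact p.Prime] {O : Type} [CommRing O] [IsDomain O]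
  [IsDiscreteValuationRing O] [IsAdicComplete (maximalIdeal O) O] [Finite (ResidueField O)]
  [CharZero O] {a : Nat.Primes → O}

/-- the diagonal piece `c ⊕ χ c⁻¹` over an extension `O₂` (copy of
`S30.exists_good_piece_of_commute` with one more conclusion: the piece is diagonal). -/
theorem exists_good_piece_of_commute_diag (hpO : (p : O) ∈ maximalIdeal O) (P : AdicPiece N p O a)
    (hcomm : ∀ σ τ : GQ, Commute (P.M σ) (P.M τ)) :
    ∃ (O₂ : Type) (_ : CommRing O₂) (_ : IsDomain O₂) (_ : IsDiscreteValuationRing O₂)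
      (_ : IsAdicComplete (maximalIdeal O₂) O₂) (_ : Finite (ResidueField O₂)) (_ : CharZero O₂)
      (_ : Algebra O O₂) (_ : Module.Finite O O₂) (_ : IsLocalHom (algebraMap O O₂)),
      Function.Injective (algebraMap O O₂) ∧
      ∃ P₂ : AdicPiece N p O₂ (fun ℓ => algebraMap O O₂ (a ℓ)), P₂.IsGood ∧
        ∀ σ : GQ, (P₂.M σ) 0 1 = 0 := by
  classical
  have hp : p.Prime := hpf.out
  obtain ⟨O₂, i1, i2, i3, i4, i5, i6, i7, i8, i9, hinj, c, hcont, htriv, hrel⟩ :=
    exists_eigenChar P.M hcomm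
  refine ⟨O₂, i1, i2, i3, i4, i5, i6, i7, i8, i9, hinj, ?_⟩
  -- `p` lies in the maximal ideal of `O₂`
  have hmap : ∀ x : O, x ∈ maximalIdeal O → algebraMap O O₂ x ∈ maximalIdeal O₂ := by
    intro x hx
    rw [mem_maximalIdeal, mem_nonunits_iff] at hx ⊢
    exact fun hu => hx (i9.map_nonunit x hu)
  have hp₂ : (p : O₂) ∈ maximalIdeal O₂ := by
    have := hmap (p : O) hpO
    rwa [map_natCast] at this
  set χ₂ : GQ →* O₂ˣ := chiAdic p (maximalIdeal O₂) hp₂ with hχ₂
  set d₁ : GQ →* O₂ := (Units.coeHom O₂).comp c with hd₁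
  set d₂ : GQ →* O₂ := (Units.coeHom O₂).comp (χ₂ / c) with hd₂
  have hd₁a : ∀ σ, d₁ σ = ((c σ : O₂ˣ) : O₂) := fun _ => rfl
  have hd₂a : ∀ σ, d₂ σ = ((χ₂ σ : O₂ˣ) : O₂) * (((c σ)⁻¹ : O₂ˣ) : O₂) := fun σ => by
    rw [hd₂, MonoidHom.comp_apply, MonoidHom.div_apply, div_eq_mul_inv, Units.coeHom_apply,
      Units.val_mul]
  have huw : ∀ σ, ((c σ : O₂ˣ) : O₂) * (((c σ)⁻¹ : O₂ˣ) : O₂) = 1 := fun σ => Units.mul_inv _
  -- the quadratic relation at Frobenius elements
  have hquad : ∀ (ℓ : ℕ) (hℓ : ℓ.Prime), ¬ ℓ ∣ N * p →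
      ∀ B : ValuationSubring Qb, B.LiesOverPrime ℓ → ∀ σ : GQ, B.IsFrobeniusAt σ ℓ →
        ((c σ : O₂ˣ) : O₂) * (c σ : O₂ˣ) - algebraMap O O₂ (a ⟨ℓ, hℓ⟩) * (c σ : O₂ˣ)
          + (ℓ : O₂) = 0 ∧ ((χ₂ σ : O₂ˣ) : O₂) = (ℓ : O₂) := by
    intro ℓ hℓ h B hB σ hσ
    refine ⟨?_, chiAdic_of_isFrobeniusAt _ hp₂ hℓ (ne_of_not_dvd' h) hB hσ⟩
    have := hrel σ (a ⟨ℓ, hℓ⟩) (ℓ : O) (P.frob ℓ hℓ h B hB σ hσ)
    rwa [map_natCast] at this
  refine ⟨{ M := diagHom d₁ d₂, continuous := ?_, unram := ?_, frob := ?_ }, ?_, ?_⟩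
  · -- continuity
    intro n
    obtain ⟨L₀, hfd, hL₀⟩ := P.continuous n
    haveI := hfd
    refine ⟨L₀ ⊔ cycloFieldPow p n, IntermediateField.finiteDimensional_sup _ _,
      fun σ hσ => ?_⟩
    have h1 : ((c σ : O₂ˣ) : O₂) - 1 ∈ maximalIdeal O₂ ^ n :=
      hcont n σ fun i j => hL₀ σ (fun x hx => hσ x (le_sup_left (a := L₀) hx)) i j
    have h2 : ((χ₂ σ : O₂ˣ) : O₂) - 1 ∈ maximalIdeal O₂ ^ n :=
      chiAdic_sub_one_mem _ hp₂ fun x hx => hσ x (le_sup_right (b := cycloFieldPow p n) hx)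
    have h3 : (((χ₂ / c) σ : O₂ˣ) : O₂) - 1 ∈ maximalIdeal O₂ ^ n := by
      rw [MonoidHom.div_apply]
      exact (congSub (maximalIdeal O₂ ^ n)).div_mem (mem_congSub.mpr h2) (mem_congSub.mpr h1)
    intro i j
    rw [diagHom_apply]
    fin_cases i <;> fin_cases j
    · simpa [hd₁a] using h1
    · simp
    · simp
    · simpa [hd₂] using h3
  · -- unramifiedness
    intro ℓ hℓ h B hB σ hσ
    have h1 : c σ = 1 := htriv σ (P.unram ℓ hℓ h B hB σ hσ)
    have h2 : χ₂ σ = 1 := chiAdic_of_mem_inertia _ hp₂ hℓ (ne_of_not_dvd' h) hB hσ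
    rw [diagHom_apply, hd₁a, hd₂a, h1, h2]
    ext i j
    fin_cases i <;> fin_cases j <;> simp
  · -- the quadratic relation
    intro ℓ hℓ h B hB σ hσ
    obtain ⟨hq, hχ⟩ := hquad ℓ hℓ h B hB σ hσ
    have hu := huw σ
    rw [diagHom_apply, hd₁a, hd₂a, hχ]
    set u : O₂ := ((c σ : O₂ˣ) : O₂)
    set w : O₂ := (((c σ)⁻¹ : O₂ˣ) : O₂)
    set a' : O₂ := algebraMap O O₂ (a ⟨ℓ, hℓ⟩)
    ext i j
    fin_cases i <;> fin_cases j
    · simp
      linear_combination hq
    · simp
    · simp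
    · simp
      linear_combination ((ℓ : O₂) * w ^ 2) * hq - ((ℓ : O₂) * (1 + u * w) - a' * (ℓ : O₂) * w) * hu
  · -- all Frobenius elements are good
    intro ℓ hℓ h B hB σ hσ
    obtain ⟨hq, hχ⟩ := hquad ℓ hℓ h B hB σ hσ
    have hu := huw σ
    show (diagHom d₁ d₂ σ).trace = algebraMap O O₂ (a ⟨ℓ, hℓ⟩) ∧ (diagHom d₁ d₂ σ).det = (ℓ : O₂)
    rw [diagHom_apply, hd₁a, hd₂a, hχ, Matrix.trace_fin_two, Matrix.det_fin_two]
    set u : O₂ := ((c σ : O₂ˣ) : O₂)
    set w : O₂ := (((c σ)⁻¹ : O₂ˣ) : O₂)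
    set a' : O₂ := algebraMap O O₂ (a ⟨ℓ, hℓ⟩)
    constructor
    · simp
      linear_combination w * hq - (u - a') * hu
    · simp
      linear_combination (ℓ : O₂) * hu
  · -- the piece is diagonal
    intro σ
    show (diagHom d₁ d₂ σ) 0 1 = 0
    rw [diagHom_apply]
    simp

end Bad

/-! ### goodness from residual absolute irreducibility -/

section Good

variable {N p : ℕ} [hpf : Fact p.Prime]

/-- if every attached representation over every finite DVR extension of `O` is residually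
absolutely irreducible, the adic piece is good (the commutative case would produce the attached
diagonal representation `c ⊕ χ c⁻¹`). -/
theorem isGood_of_forall_absIrr (hN : N ≠ 0) (O : Type) [CommRing O] [IsDomain O]
    [IsDiscreteValuationRing O] [IsAdicComplete (maximalIdeal O) O] [Finite (ResidueField O)]
    [CharZero O] (hpO : (p : O) ∈ maximalIdeal O) (a : Nat.Primes → O) (P : AdicPiece N p O a)
    (hres : ∀ (O₂ : Type) [CommRing O₂] [IsDomain O₂] [IsDiscreteValuationRing O₂]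
      [IsAdicComplete (maximalIdeal O₂) O₂] [Finite (ResidueField O₂)] [CharZero O₂]
      [Algebra O O₂] [Module.Finite O O₂] [IsLocalHom (algebraMap O O₂)],
      Function.Injective (algebraMap O O₂) → ∀ ρ : GaloisRepAdic O₂,
        IsAttachedAdic N p (fun ℓ => algebraMap O O₂ (a ℓ)) ρ →
          ρ.residual.IsAbsolutelyIrreducible) :
    P.IsGood := by
  classical
  by_contra hgood
  unfold AdicPiece.IsGood at hgood
  push Not at hgood
  obtain ⟨ℓ₀, hℓ₀, h₀, A₀, hA₀, σ₀, hσ₀, hbad⟩ := hgood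
  have hcomm := commute_of_bad hpO P hN hℓ₀ h₀ hA₀ hσ₀
    (fun hh => absurd hh.2 (hbad hh.1))
  obtain ⟨O₂, i1, i2, i3, i4, i5, i6, i7, i8, i9, hinj, P₂, hP₂, hdiag⟩ :=
    exists_good_piece_of_commute_diag hpO P hcomm
  exact not_absIrr_of_diag P₂ hdiag
    (hres O₂ hinj P₂.toRep (P₂.isAttachedAdic_of_isGood hP₂))

end Good

end Fermat.Agent.S36lib
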