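/-
S36lib / Gal / Descent (helper3).  **Descent of fixed vectors along an injective ring map into a
field.**  Let `R` be a domain, `φ : R → K` an injective ring homomorphism into a field, `𝒢` a set
of `r × r` matrices over `R` and `Q` one more such matrix.  If `Q` kills every vector of `R^r` fixed
by all of `𝒢`, then `φ(Q)` kills every vector of `K^r` fixed by all of `φ(𝒢)`.
(`K` is a vector space over `F = Frac R`; apply the `F`-linear functionals of `K` coordinatewise and
clear denominators.)  No finiteness of `K` over `F` is needed.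
-/
import Mathlib

set_option autoImplicit false
set_option linter.style.haveILetI false

noncomputable section

namespace Fermat.Agent.S36lib

open Matrix

/-- an `F`-linear functional of `K`, applied coordinatewise, commutes with the matrices with
entries in `F`. -/
lemma functional_mulVec {F K : Type*} [Field F] [Field K] [Algebra F K] {r : ℕ}
    (lam : K →ₗ[F] F) (G : Matrix (Fin r) (Fin r) F) (v : Fin r → K) :
    (fun i => lam ((G.map (algebraMap F K) *ᵥ v) i)) = G *ᵥ (fun j => lam (v j)) := by
  funext i
  simp only [Matrix.mulVec, dotProduct, Matrix.map_apply, map_sum]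
  refine Finset.sum_congr rfl fun j _ => ?_
  rw [← Algebra.smul_def, map_smul, smul_eq_mul]

/-- **Descent of fixed vectors.** -/
theorem fixed_descent {R K : Type*} [CommRing R] [IsDomain R] [Field K] (φ : R →+* K)
    (hφ : Function.Injective φ) {r : ℕ} (𝒢 : Set (Matrix (Fin r) (Fin r) R))
    (Q : Matrix (Fin r) (Fin r) R)
    (hQ : ∀ w : Fin r → R, (∀ G ∈ 𝒢, G *ᵥ w = w) → Q *ᵥ w = 0)
    (v : Fin r → K) (hv : ∀ G ∈ 𝒢, G.map φ *ᵥ v = v) : Q.map φ *ᵥ v = 0 := by
  classical
  set F := FractionRing R with hF
  let ψ : F →+* K := IsFractionRing.lift hφ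
  letI : Algebra F K := ψ.toAlgebra
  have hcomp : ∀ x : R, algebraMap F K (algebraMap R F x) = φ x := fun x =>
    IsFractionRing.lift_algebraMap hφ x
  have hmap : ∀ G : Matrix (Fin r) (Fin r) R,
      (G.map (algebraMap R F)).map (algebraMap F K) = G.map φ := by
    intro G
    ext i j
    rw [Matrix.map_apply, Matrix.map_apply, Matrix.map_apply, hcomp]
  -- it suffices to test against all functionals
  funext i
  rw [Pi.zero_apply]
  refine (Module.forall_dual_apply_eq_zero_iff F ((Q.map φ *ᵥ v) i)).mp fun lam => ?_
  -- the vector of values of `lam`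
  set u : Fin r → F := fun j => lam (v j) with hu
  have hfixF : ∀ G ∈ 𝒢, G.map (algebraMap R F) *ᵥ u = u := by
    intro G hG
    rw [hu, ← functional_mulVec lam (G.map (algebraMap R F)) v, hmap, hv G hG]
  -- clear denominators
  obtain ⟨b, hb⟩ := IsLocalization.exist_integer_multiples_of_finite (nonZeroDivisors R) u
  choose w hw using hb
  have hb0 : algebraMap R F (b : R) ≠ 0 := by
    intro h0
    have := (IsFractionRing.injective R F) (h0.trans (map_zero _).symm)
    exact nonZeroDivisors.ne_zero b.2 this
  have hwu : (fun j => algebraMap R F (w j)) = algebraMap R F (b : R) • u := by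
    funext j
    rw [hw j, Pi.smul_apply, Algebra.smul_def, smul_eq_mul]
  have hmv : ∀ (G : Matrix (Fin r) (Fin r) R) (x : Fin r → R),
      (fun i => algebraMap R F ((G *ᵥ x) i)) =
        G.map (algebraMap R F) *ᵥ (fun j => algebraMap R F (x j)) := by
    intro G x
    funext i
    exact RingHom.map_mulVec (algebraMap R F) G x i
  have hwfix : ∀ G ∈ 𝒢, G *ᵥ w = w := by
    intro G hG
    funext i
    apply IsFractionRing.injective R F
    have h1 := congrFun (hmv G w) i
    rw [h1, hwu, Matrix.mulVec_smul, hfixF G hG]
    exact (congrFun hwu i).symm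
  have hQw := hQ w hwfix
  have hQu : Q.map (algebraMap R F) *ᵥ u = 0 := by
    have h1 := hmv Q w
    rw [hQw, hwu, Matrix.mulVec_smul] at h1
    have h2 : algebraMap R F (b : R) • (Q.map (algebraMap R F) *ᵥ u) = 0 := by
      rw [← h1]
      funext i
      simp
    exact (smul_eq_zero.mp h2).resolve_left hb0
  have h3 := congrFun (functional_mulVec lam (Q.map (algebraMap R F)) v) i
  rw [hmap, hQu] at h3
  exact h3

end Fermat.Agent.S36lib
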