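/-
S36lib / Gal / PadicMat (helper3).  The `p`-adic matrices of a torsion system (`O := ℤ_[p]` in
helper8's `galMatO`), their reductions, the comparison with `galMatO` over any complete `O`, and the
**fixed-vector clause**: let `H` be a set of elements of the acting monoid, `P` a noncommutative
integer polynomial in the Hecke operators and `c : ℤ`.  If on every `T k` the operator `c • P(t)`
kills the `H`-fixed elements, and `c • P(a) ≠ 0` in a complete domain `O` of characteristic `0`,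
then no nonzero common eigenvector `v ∈ O^r` of the Hecke matrices (eigenvalues `a`) is fixed by
all limit matrices `galMatO s`, `s ∈ H`.
-/
import Fermat.Agent.S29lib.S30.AdicLattice
import Fermat.Agent.S29lib.S30.PadicToRing
import Fermat.Agent.S35lib.R3.Kill
import Fermat.Agent.S36lib.Gal.Descent

set_option autoImplicit false
set_option linter.style.haveILetI false
set_option linter.unusedSectionVars false

noncomputable section

namespace Fermat.Agent.S36lib

open Matrix Fermat.Agent.S29lib.E Fermat.Agent.S29lib.S30 Fermat.Agent.S35lib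

section Padic

variable {G I : Type} [Monoid G] {p r : ℕ} [hpf : Fact p.Prime] (𝒯 : TorsionSystem G I p r)

lemma natCast_mem_maximalIdeal_padicInt :
    ((p : ℕ) : ℤ_[p]) ∈ IsLocalRing.maximalIdeal ℤ_[p] := by
  rw [PadicInt.maximalIdeal_eq_span_p]
  exact Ideal.mem_span_singleton_self _

/-- the `p`-adic matrices of the action -/
def galMatZp (σ : G) : Matrix (Fin r) (Fin r) ℤ_[p] :=
  galMatO 𝒯 (IsLocalRing.maximalIdeal ℤ_[p]) natCast_mem_maximalIdeal_padicInt σ

/-- the reduction modulo `p^k` of the `p`-adic matrices -/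
lemma galMatZp_map_toZModPow (k : ℕ) (σ : G) :
    (galMatZp 𝒯 σ).map (PadicInt.toZModPow k) = 𝒯.galMat k σ := by
  have h := isLim_galMatO 𝒯 (IsLocalRing.maximalIdeal ℤ_[p]) natCast_mem_maximalIdeal_padicInt σ k
  ext i j
  have hij := congrFun (congrFun h i) j
  simp only [Matrix.map_apply] at hij
  rw [Matrix.map_apply]
  set x : ℤ_[p] := galMatZp 𝒯 σ i j with hx
  set z : ZMod (p ^ k) := 𝒯.galMat k σ i j with hz
  change Ideal.Quotient.mk (IsLocalRing.maximalIdeal ℤ_[p] ^ k) x = _ at hij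
  have hza : ((z.cast : ℤ) : ZMod (p ^ k)) = z := ZMod.intCast_zmod_cast z
  have h1 : psi (IsLocalRing.maximalIdeal ℤ_[p]) natCast_mem_maximalIdeal_padicInt k z =
      Ideal.Quotient.mk (IsLocalRing.maximalIdeal ℤ_[p] ^ k) (((z.cast : ℤ) : ℤ_[p])) := by
    conv_lhs => rw [← hza]
    rw [map_intCast, map_intCast]
  rw [h1, Ideal.Quotient.eq, PadicInt.maximalIdeal_eq_span_p, Ideal.span_singleton_pow,
    ← PadicInt.ker_toZModPow, RingHom.mem_ker, map_sub, sub_eq_zero, map_intCast, hza] at hij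
  exact hij

variable {O : Type} [CommRing O] (J : Ideal O) [IsAdicComplete J O] (hpJ : (p : O) ∈ J)

/-- the limit matrices over `O` are the images of the `p`-adic matrices -/
lemma galMatO_eq_map_galMatZp (σ : G) :
    galMatO 𝒯 J hpJ σ = (galMatZp 𝒯 σ).map (padicToRing p J hpJ) := by
  apply IsLim.unique J hpJ (isLim_galMatO 𝒯 J hpJ σ)
  intro k
  ext i j
  simp only [Matrix.map_apply]
  rw [mk_padicToRing]
  have h1 := congrFun (congrFun (galMatZp_map_toZModPow 𝒯 k σ) i) j
  rw [Matrix.map_apply] at h1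
  rw [h1]
  exact RingHom.congr_fun (RingHom.ext_zmod _ _) _

/-- the images of the values of a noncommutative polynomial at the Hecke matrices -/
lemma killMatR_map {R S : Type*} [CommRing R] [CommRing S] (f : R →+* S) (P : FreeAlgebra ℤ I) :
    (killMatR 𝒯 R P).map f = killMatR 𝒯 S P := by
  rw [killMatR_eq_map, killMatR_eq_map, Matrix.map_map]
  congr 1
  funext n
  exact map_intCast f n

/-- **the fixed-vector clause over `ℤ_[p]`** -/
theorem galMatZp_fixed_kill (H : Set G) (c : ℤ) (P : FreeAlgebra ℤ I)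
    (h : ∀ k, ∀ x : 𝒯.T k, (∀ s ∈ H, 𝒯.act k s x = x) → ∃ y : 𝒯.T k,
      𝒯.κ k y = killMatR 𝒯 (ZMod (p ^ k)) P *ᵥ 𝒯.κ k x ∧ c • y = 0)
    (w : Fin r → ℤ_[p]) (hw : ∀ s ∈ H, galMatZp 𝒯 s *ᵥ w = w) :
    ((c : ℤ_[p]) • killMatR 𝒯 ℤ_[p] P) *ᵥ w = 0 := by
  funext i
  rw [Pi.zero_apply]
  apply PadicInt.ext_of_toZModPow.mp
  intro k
  rw [map_zero, RingHom.map_mulVec]
  set wk : Fin r → ZMod (p ^ k) := (PadicInt.toZModPow k) ∘ w with hwk
  -- the corresponding torsion element is fixed by `H`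
  set x : 𝒯.T k := (𝒯.κ k).symm wk with hx
  have hκx : 𝒯.κ k x = wk := AddEquiv.apply_symm_apply _ _
  have hxfix : ∀ s ∈ H, 𝒯.act k s x = x := by
    intro s hs
    apply (𝒯.κ k).injective
    rw [← 𝒯.galMat_mulVec_κ k s x, hκx, ← galMatZp_map_toZModPow 𝒯 k s]
    funext i'
    rw [← RingHom.map_mulVec, hw s hs]
    rfl
  obtain ⟨y, hy, hcy⟩ := h k x hxfix
  have h1 : ((c : ℤ_[p]) • killMatR 𝒯 ℤ_[p] P).map (PadicInt.toZModPow k) =
      (c : ZMod (p ^ k)) • killMatR 𝒯 (ZMod (p ^ k)) P := by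
    rw [← killMatR_map 𝒯 (PadicInt.toZModPow k) P]
    ext i' j'
    simp only [Matrix.map_apply, Matrix.smul_apply, smul_eq_mul, map_mul, map_intCast]
  rw [h1, Matrix.smul_mulVec, ← hκx, ← hy, Pi.smul_apply, Int.cast_smul_eq_zsmul,
    ← Pi.smul_apply, ← map_zsmul, hcy, map_zero, Pi.zero_apply]

end Padic

section Domain

variable {G I : Type} [Monoid G] {p r : ℕ} [hpf : Fact p.Prime] (𝒯 : TorsionSystem G I p r)
variable {O : Type} [CommRing O] [IsDomain O] [CharZero O] (J : Ideal O) [IsAdicComplete J O]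
  (hpJ : (p : O) ∈ J)

/-- `ℤ_[p] → O` is injective when `O` is a domain of characteristic `0` -/
lemma padicToRing_injective : Function.Injective (padicToRing p J hpJ) := by
  rw [injective_iff_map_eq_zero]
  intro x hx
  by_contra hx0
  have hspec := PadicInt.unitCoeff_spec hx0
  rw [hspec, map_mul, map_pow, map_natCast] at hx
  have hu : IsUnit (padicToRing p J hpJ (PadicInt.unitCoeff hx0 : ℤ_[p])) :=
    (PadicInt.unitCoeff hx0).isUnit.map _
  have hp0 : ((p : ℕ) : O) ^ x.valuation ≠ 0 :=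
    pow_ne_zero _ (Nat.cast_ne_zero.mpr hpf.out.ne_zero)
  exact mul_ne_zero hu.ne_zero hp0 hx

/-- **the fixed-vector clause over `O`**: no nonzero common eigenvector of the Hecke matrices is
fixed by the limit matrices of all `s ∈ H`. -/
theorem eq_zero_of_galMatO_fixed (a : I → O) (H : Set G) (c : ℤ) (P : FreeAlgebra ℤ I)
    (hne : (c : O) * FreeAlgebra.lift ℤ a P ≠ 0)
    (h : ∀ k, ∀ x : 𝒯.T k, (∀ s ∈ H, 𝒯.act k s x = x) → ∃ y : 𝒯.T k,
      𝒯.κ k y = killMatR 𝒯 (ZMod (p ^ k)) P *ᵥ 𝒯.κ k x ∧ c • y = 0)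
    (v : Fin r → O) (hv : ∀ i, (𝒯.t i).map (Int.cast : ℤ → O) *ᵥ v = a i • v)
    (hfix : ∀ s ∈ H, galMatO 𝒯 J hpJ s *ᵥ v = v) : v = 0 := by
  classical
  set K := FractionRing O with hK
  set φ₀ : ℤ_[p] →+* O := padicToRing p J hpJ with hφ₀
  set φ : ℤ_[p] →+* K := (algebraMap O K).comp φ₀ with hφ
  have hφinj : Function.Injective φ :=
    (IsFractionRing.injective O K).comp (padicToRing_injective J hpJ)
  have hmapφ : ∀ A : Matrix (Fin r) (Fin r) ℤ_[p], A.map φ = (A.map φ₀).map (algebraMap O K) := by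
    intro A
    ext i j
    rfl
  set v' : Fin r → K := (algebraMap O K) ∘ v with hv'
  have hdesc := fixed_descent φ hφinj (Set.image (galMatZp 𝒯) H)
    ((c : ℤ_[p]) • killMatR 𝒯 ℤ_[p] P)
    (fun w hw => galMatZp_fixed_kill 𝒯 H c P h w
      (fun s hs => hw _ (Set.mem_image_of_mem _ hs))) v' ?_
  · -- back to `O`
    have h1 : ((c : ℤ_[p]) • killMatR 𝒯 ℤ_[p] P).map φ₀ = (c : O) • killMatR 𝒯 O P := by
      rw [← killMatR_map 𝒯 φ₀ P]
      ext i' j'
      simp only [Matrix.map_apply, Matrix.smul_apply, smul_eq_mul, map_mul, map_intCast]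
    rw [hmapφ, h1] at hdesc
    have h2 : ((c : O) • killMatR 𝒯 O P) *ᵥ v = 0 := by
      funext i
      apply IsFractionRing.injective O K
      rw [RingHom.map_mulVec, Pi.zero_apply, map_zero]
      exact congrFun hdesc i
    rw [Matrix.smul_mulVec, killMatR_mulVec_eigen 𝒯 a v hv P, smul_smul] at h2
    exact (smul_eq_zero.mp h2).resolve_left hne
  · rintro _ ⟨s, hs, rfl⟩
    rw [hmapφ, ← galMatO_eq_map_galMatZp 𝒯 J hpJ s]
    funext i
    rw [hv', ← RingHom.map_mulVec, hfix s hs]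
    rfl

end Domain

end Fermat.Agent.S36lib
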