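/-
S36lib / Gal / Galois36 (helper3): the adic lattice of S30 (Galois form and matrix form), with the
**inertia clause** at the primes `q` with `q² ∥ N`, `q ≠ p`: for every valuation ring `A` of `ℚ̄`
over `q`, no nonzero vector is fixed by all `ρ(σ)`, `σ ∈ I_A`.  Input: `InertiaKillTors N p g`
(interface (IKILL), `S36lib/KillInterface36.lean`) and the compatibility of the eigenvalues `a`
with the `q`-expansion coefficients of `g`.  (Copy of lead's `S35lib/R3/Galois.lean` with the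
Frobenius-new clause replaced by the inertia clause.)
-/
import Fermat.Agent.S29lib.S30.AdicMatrix
import Fermat.Agent.S35lib.R3.Galois
import Fermat.Agent.S36lib.KillInterface36
import Fermat.Agent.S36lib.Gal.Lattice36

set_option autoImplicit false

noncomputable section

namespace Fermat.Agent.S36lib

open ModularCurve Matrix Fermat.Agent.S29lib Fermat.Agent.S29lib.E Fermat.Agent.S29lib.S30
  Fermat.Agent.S35lib

/-- `ℚ̄` -/
local notation "Qb" => AlgebraicClosure ℚ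
/-- `G_ℚ` -/
local notation "GQ" => (AlgebraicClosure ℚ ≃ₐ[ℚ] AlgebraicClosure ℚ)

variable {N p : ℕ} [NeZero N] [hpf : Fact p.Prime]

/-- **S30 brick (C), Galois form, with the inertia clause.** -/
theorem exists_adic_galois_in (C : ComparisonData N p) (LD : LocalData N p)
    {g : CuspForm (CongruenceSubgroup.Gamma0 N) 2} (hK : InertiaKillTors N p g)
    (O : Type) [CommRing O] [IsDomain O] [IsDiscreteValuationRing O] [CharZero O]
    [IsAdicComplete (IsLocalRing.maximalIdeal O) O] (hpO : (p : O) ∈ IsLocalRing.maximalIdeal O)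
    (a : Nat.Primes → O)
    (ha : ∀ P : FreeAlgebra ℤ Nat.Primes, coeffEval g P ≠ 0 → FreeAlgebra.lift ℤ a P ≠ 0)
    {L : Type} [Field L] (emb : O →+* L) (hemb : Function.Injective emb)
    (hfin : Module.finrank L ↥(⨅ ℓ : Nat.Primes, LinearMap.ker
      (Matrix.toLin' ((C.t ℓ).map (Int.cast : ℤ → L)) - emb (a ℓ) • 1)) = 2) :
    ∃ (V : Submodule O (Fin C.r → O)) (ρ : GQ →* Module.End O V),
      Module.Free O V ∧ Module.Finite O V ∧ Module.finrank O V = 2 ∧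
      GaloisActionIsAdicContinuous O ρ ∧
      (∀ ℓ : ℕ, ℓ.Prime → ¬ ℓ ∣ N * p →
        ∀ A : ValuationSubring Qb, A.LiesOverPrime ℓ → ∀ σ ∈ A.inertiaSubgroupIn ℚ, ρ σ = 1) ∧
      (∀ (ℓ : ℕ) (hℓ : ℓ.Prime), ¬ ℓ ∣ N * p →
        ∀ A : ValuationSubring Qb, A.LiesOverPrime ℓ → ∀ σ : GQ, A.IsFrobeniusAt σ ℓ →
          ρ σ * ρ σ - a ⟨ℓ, hℓ⟩ • ρ σ + (ℓ : O) • (1 : Module.End O V) = 0) ∧
      (∀ q : ℕ, q.Prime → q ≠ p → N.factorization q = 2 →
        ∀ A : ValuationSubring Qb, A.LiesOverPrime q →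
          ∀ x : V, (∀ σ ∈ A.inertiaSubgroupIn ℚ, ρ σ x = x) → x = 0) := by
  obtain ⟨V, ρ, hfree, hfinite, hrank, hcont, hfix, hfrob, -, hin⟩ :=
    exists_adic_lattice_in (torsionSystemOf C) O hpO a emb hemb hfin
  refine ⟨V, ρ, hfree, hfinite, hrank, ?_, ?_, ?_, ?_⟩
  · intro n
    obtain ⟨L', hL', hLfix⟩ := LD.finiteLevel n
    exact ⟨L', hL', fun σ hσ v => hcont n σ
      (fun (x : Tors N (p ^ n)) => Subtype.ext (hLfix σ hσ (x : JZero N) x.2)) v⟩
  · intro ℓ hℓ hℓNp A hA σ hσ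
    exact hfix σ (fun k (x : Tors N (p ^ k)) =>
      Subtype.ext (LD.unram ℓ hℓ hℓNp A hA σ hσ k (x : JZero N) x.2))
  · intro ℓ hℓ hℓNp A hA σ hσ
    refine hfrob σ ⟨ℓ, hℓ⟩ ℓ (fun k (x : Tors N (p ^ k)) => ?_)
    apply frob_tors C k σ ⟨ℓ, hℓ⟩ x
    have h1 := LD.frob ℓ hℓ hℓNp A hA σ hσ k (x : JZero N) x.2
    have hN : ¬ ℓ ∣ N := fun h => hℓNp (dvd_mul_of_dvd_left h p)
    rw [C.TJ_good ⟨ℓ, hℓ⟩ hN, ← natCast_zsmul]
    exact h1
  · intro q hq hqp hqN A hA x hx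
    obtain ⟨c, P, hc, hP, hrel⟩ := hK q hq hqp hqN
    have hne : (c : O) * FreeAlgebra.lift ℤ a P ≠ 0 :=
      mul_ne_zero (Int.cast_ne_zero.mpr hc) (ha P hP)
    refine hin (↑(A.inertiaSubgroupIn ℚ) : Set GQ) c P hne
      (fun k (y : Tors N (p ^ k)) hy => ?_) x hx
    refine ⟨⟨heckeEval C.TJ P y, heckeEval_mem_Tors C.TJ P y.2⟩,
      κ_heckeEval C k P y _ rfl, ?_⟩
    apply Subtype.ext
    exact hrel C.TJ C.TJ_good A hA k (y : JZero N) y.2
      (fun σ hσ => congrArg Subtype.val (hy σ hσ))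

/-- **S30 brick (C), matrix form, with the inertia clause.** -/
theorem exists_adic_matrix_in (C : ComparisonData N p) (LD : LocalData N p)
    {g : CuspForm (CongruenceSubgroup.Gamma0 N) 2} (hK : InertiaKillTors N p g)
    (O : Type) [CommRing O] [IsDomain O] [IsDiscreteValuationRing O] [CharZero O]
    [IsAdicComplete (IsLocalRing.maximalIdeal O) O] (hpO : (p : O) ∈ IsLocalRing.maximalIdeal O)
    (a : Nat.Primes → O)
    (ha : ∀ P : FreeAlgebra ℤ Nat.Primes, coeffEval g P ≠ 0 → FreeAlgebra.lift ℤ a P ≠ 0)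
    {L : Type} [Field L] (emb : O →+* L) (hemb : Function.Injective emb)
    (hfin : Module.finrank L ↥(⨅ ℓ : Nat.Primes, LinearMap.ker
      (Matrix.toLin' ((C.t ℓ).map (Int.cast : ℤ → L)) - emb (a ℓ) • 1)) = 2) :
    ∃ M : GQ →* Matrix (Fin 2) (Fin 2) O,
      (∀ n : ℕ, ∃ L' : IntermediateField ℚ Qb, FiniteDimensional ℚ L' ∧
        ∀ σ : GQ, (∀ x ∈ L', σ x = x) →
          ∀ i j, (M σ - 1) i j ∈ IsLocalRing.maximalIdeal O ^ n) ∧
      (∀ ℓ : ℕ, ℓ.Prime → ¬ ℓ ∣ N * p →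
        ∀ A : ValuationSubring Qb, A.LiesOverPrime ℓ → ∀ σ ∈ A.inertiaSubgroupIn ℚ, M σ = 1) ∧
      (∀ (ℓ : ℕ) (hℓ : ℓ.Prime), ¬ ℓ ∣ N * p →
        ∀ A : ValuationSubring Qb, A.LiesOverPrime ℓ → ∀ σ : GQ, A.IsFrobeniusAt σ ℓ →
          M σ * M σ - a ⟨ℓ, hℓ⟩ • M σ + (ℓ : O) • (1 : Matrix (Fin 2) (Fin 2) O) = 0) ∧
      (∀ q : ℕ, q.Prime → q ≠ p → N.factorization q = 2 →
        ∀ A : ValuationSubring Qb, A.LiesOverPrime q →
          ∀ v : Fin 2 → O, (∀ σ ∈ A.inertiaSubgroupIn ℚ, M σ *ᵥ v = v) → v = 0) := by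
  obtain ⟨V, ρ, hfree, hfinite, hrank, hcont, hunram, hfrob, hin⟩ :=
    exists_adic_galois_in C LD hK O hpO a ha emb hemb hfin
  let b : Module.Basis (Fin 2) O V := Module.finBasisOfFinrankEq O V hrank
  let Φ : Module.End O V ≃ₐ[O] Matrix (Fin 2) (Fin 2) O := LinearMap.toMatrixAlgEquiv b
  let M : GQ →* Matrix (Fin 2) (Fin 2) O := (Φ : Module.End O V →* Matrix (Fin 2) (Fin 2) O).comp ρ
  have hM : ∀ σ, M σ = Φ (ρ σ) := fun σ => rfl
  refine ⟨M, ?_, ?_, ?_, ?_⟩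
  · intro n
    obtain ⟨L', hL', hL'fix⟩ := hcont n
    refine ⟨L', hL', fun σ hσ i j => ?_⟩
    have h1 : (M σ - 1) i j = b.repr (ρ σ (b j) - b j) i := by
      rw [hM, ← map_one Φ, ← map_sub]
      show LinearMap.toMatrixAlgEquiv b (ρ σ - 1) i j = _
      rw [LinearMap.toMatrixAlgEquiv_apply, LinearMap.sub_apply, Module.End.one_apply]
    rw [h1]
    exact repr_mem_of_mem_smul_top b _ (hL'fix σ hσ (b j)) i
  · intro ℓ hℓ hℓNp A hA σ hσ
    rw [hM, hunram ℓ hℓ hℓNp A hA σ hσ, map_one]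
  · intro ℓ hℓ hℓNp A hA σ hσ
    have h0 := hfrob ℓ hℓ hℓNp A hA σ hσ
    rw [hM]
    generalize a ⟨ℓ, hℓ⟩ = c at h0 ⊢
    have h1 : Φ (ρ σ * ρ σ - c • ρ σ + (ℓ : O) • 1) = 0 := by rw [h0, map_zero]
    have e1 := map_add Φ (ρ σ * ρ σ - c • ρ σ) ((ℓ : O) • 1)
    have e2 := map_sub Φ (ρ σ * ρ σ) (c • ρ σ)
    have e3 := map_mul Φ (ρ σ) (ρ σ)
    have e4 := map_smul Φ c (ρ σ)
    have e5 := map_smul Φ (ℓ : O) (1 : Module.End O V)
    have e6 := map_one Φ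
    rw [e1, e2, e3, e4, e5, e6] at h1
    exact h1
  · intro q hq hqp hqN A hA v hv
    -- the vector of `V` with coordinates `v`
    set x : V := b.equivFun.symm v with hx
    have hfixx : ∀ σ ∈ A.inertiaSubgroupIn ℚ, ρ σ x = x := by
      intro σ hσ
      apply b.equivFun.injective
      have h1 : b.equivFun (ρ σ x) = LinearMap.toMatrix b b (ρ σ) *ᵥ b.equivFun x := by
        funext i
        rw [Module.Basis.equivFun_apply, Module.Basis.equivFun_apply,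
          LinearMap.toMatrix_mulVec_repr]
      rw [h1, hx, LinearEquiv.apply_symm_apply]
      exact hv σ hσ
    have hx0 := hin q hq hqp hqN A hA x hfixx
    have : v = b.equivFun x := by rw [hx, LinearEquiv.apply_symm_apply]
    rw [this, hx0, map_zero]

end Fermat.Agent.S36lib
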